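import Fermat.Agent.ArmitageFroehlich.Duality
import Mathlib.LinearAlgebra.Matrix.Dual
import Mathlib.Algebra.Module.ZMod

/-!
# The theorem of Armitage and Fröhlich

The signs of the elements generating squares fill at least half the dimension; hence the narrow
class group has two-rank at most `⌊r₁ / 2⌋` more than the class group, and with odd class number
the units have at least `2 ^ ⌈r₁ / 2⌉` sign patterns.
-/

set_option autoImplicit false
set_option linter.unusedSectionVars false
set_option linter.style.haveILetI false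

noncomputable section

universe u

open NumberField NumberField.InfinitePlace IsDedekindDomain
open FA.Hecke (RayClassGroup rayClass finite_rayClassGroup)
open scoped Pointwise nonZeroDivisors Classical Matrix

namespace FA.ArmFro

open FA.ArtinRec

section linear

variable {ι : Type*} [Fintype ι]

/-- A subgroup of `𝔽₂^ι` containing its orthogonal complement fills half the dimension. -/
theorem exists_dim (W : AddSubgroup (ι → ZMod 2))
    (h : ∀ s : ι → ZMod 2, (∀ t ∈ W, s ⬝ᵥ t = 0) → s ∈ W) :
    ∃ d, Nat.card W = 2 ^ d ∧ d ≤ Fintype.card ι ∧ Fintype.card ι ≤ 2 * d := by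
  haveI := Fact.mk Nat.prime_two
  set V := AddSubgroup.toZModSubmodule 2 W
  set O : Submodule (ZMod 2) (ι → ZMod 2) :=
    V.dualAnnihilator.comap (dotProductEquiv (ZMod 2) ι).toLinearMap
  have hO : O ≤ V := fun s hs => h s fun t ht =>
    (Submodule.mem_dualAnnihilator _).1 (Submodule.mem_comap.1 hs) t ht
  have hdO : Module.finrank (ZMod 2) O = Module.finrank (ZMod 2) V.dualAnnihilator :=
    ((dotProductEquiv (ZMod 2) ι).ofSubmodule' V.dualAnnihilator).finrank_eq
  have hsum := Subspace.finrank_add_finrank_dualAnnihilator_eq V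
  rw [Module.finrank_fintype_fun_eq_card] at hsum
  have hle := Submodule.finrank_mono hO
  refine ⟨Module.finrank (ZMod 2) V, ?_, by omega, by omega⟩
  calc Nat.card W = Nat.card V := Nat.card_congr (Equiv.refl _)
    _ = Nat.card (ZMod 2) ^ Module.finrank (ZMod 2) V := Module.natCard_eq_pow_finrank
    _ = 2 ^ Module.finrank (ZMod 2) V := by rw [Nat.card_zmod]

end linear

variable {K : Type u} [Field K] [NumberField K]

theorem card_sgnGrp : Nat.card (SgnGrp K) = 2 ^ Nat.card (RealPl K) := by
  rw [Nat.card_congr Multiplicative.toAdd, Nat.card_fun, Nat.card_zmod]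

/-- **The signs of the elements generating squares.** -/
theorem exists_card_sqSigns :
    ∃ d, Nat.card (sqSigns K) = 2 ^ d ∧ (sqSigns K).index = 2 ^ (Nat.card (RealPl K) - d) ∧
      d ≤ Nat.card (RealPl K) ∧ Nat.card (RealPl K) ≤ 2 * d := by
  set W : AddSubgroup (RealPl K → ZMod 2) := AddSubgroup.toSubgroup.symm (sqSigns K)
  obtain ⟨d, hd, hd1, hd2⟩ := exists_dim W fun s hs =>
    mem_sqSigns_of_orthogonal (Multiplicative.ofAdd s) fun t ht =>
      Multiplicative.toAdd.injective (hs (Multiplicative.toAdd t) ht)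
  rw [← Nat.card_eq_fintype_card] at hd1 hd2
  have hW : Nat.card (sqSigns K) = 2 ^ d :=
    (Nat.card_congr (Multiplicative.toAdd.subtypeEquiv fun _ => Iff.rfl)).trans hd
  refine ⟨d, hW, ?_, hd1, hd2⟩
  have h := Subgroup.index_mul_card (sqSigns K)
  rw [hW, card_sgnGrp, ← Nat.sub_add_cancel hd1, pow_add] at h
  exact mul_right_cancel₀ (pow_ne_zero _ two_ne_zero) h

theorem two_pow_le_card_sqSigns :
    2 ^ ((Nat.card (RealPl K) + 1) / 2) ≤ Nat.card (sqSigns K) := by
  obtain ⟨d, hd, -, -, h⟩ := exists_card_sqSigns (K := K)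
  rw [hd]
  exact Nat.pow_le_pow_right two_pos (by omega)

theorem index_sqSigns_dvd : (sqSigns K).index ∣ 2 ^ (Nat.card (RealPl K) / 2) := by
  obtain ⟨d, -, hd, -, h⟩ := exists_card_sqSigns (K := K)
  rw [hd]
  exact pow_dvd_pow 2 (by omega)

/-- **The two-ranks**: exact relation. -/
theorem index_sqCls :
    (sqCls K).index =
      (sqSigns K).index * (powMonoidHom (α := ClassGroup (𝓞 K)) 2).range.index := by
  have hmap : (sqCls K).map (toClassGroup K) =
      (powMonoidHom (α := ClassGroup (𝓞 K)) 2).range := by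
    ext c
    constructor
    · rintro ⟨_, ⟨γ, rfl⟩, rfl⟩
      exact ⟨toClassGroup K γ, by simp only [powMonoidHom_apply, map_pow]⟩
    · rintro ⟨c, rfl⟩
      obtain ⟨γ, rfl⟩ := toClassGroup_surjective K c
      exact ⟨γ ^ 2, ⟨γ, rfl⟩, by simp only [powMonoidHom_apply, map_pow]⟩
  have h1 : (sqCls K ⊔ (toClassGroup K).ker).index =
      (powMonoidHom (α := ClassGroup (𝓞 K)) 2).range.index := by
    rw [← hmap, Subgroup.index_map, MonoidHom.range_eq_top.2 (toClassGroup_surjective K),
      Subgroup.index_top, mul_one]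
  rw [← Subgroup.relIndex_mul_index (le_sup_left : sqCls K ≤ sqCls K ⊔ (toClassGroup K).ker), h1,
    sup_comm, Subgroup.relIndex_sup_right, ← range_sgnCls, ← Subgroup.index_comap, comap_sqCls]

theorem card_narrow_eq :
    Nat.card (NarrowCl K) = classNumber K * Nat.card (sgnCls (K := K)).range := by
  rw [range_sgnCls, ← Subgroup.index_mul_card (toClassGroup K).ker, Subgroup.index_ker,
    MonoidHom.range_eq_top.2 (toClassGroup_surjective K),
    Nat.card_congr Subgroup.topEquiv.toEquiv, classNumber, Nat.card_eq_fintype_card]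

theorem card_range_sgnCls_dvd : Nat.card (sgnCls (K := K)).range ∣ (unitSigns K).index := by
  rw [← Subgroup.index_ker]
  exact Subgroup.index_dvd_of_le fun s hs => sgnCls_unitSigns hs

/-- **Odd class number**: the units have all these signs. -/
theorem sqSigns_eq_unitSigns (h : Odd (classNumber K)) : sqSigns K = unitSigns K := by
  refine le_antisymm ?_ unitSigns_le
  rintro _ ⟨a, ha, rfl⟩
  obtain ⟨r, hr, y, J, he, hJ⟩ := exists_square_rep ha
  have hJ2 : ClassGroup.mk0 J ^ 2 = 1 := by
    rw [← map_pow, ClassGroup.mk0_eq_one_iff (J ^ 2).2]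
    exact ⟨r, by rw [SubmonoidClass.coe_pow, pow_two, ← hJ]⟩
  have hJ1 : ClassGroup.mk0 J = 1 := by
    refine orderOf_eq_one_iff.1 (Nat.Coprime.eq_one_of_dvd ?_ (orderOf_dvd_of_pow_eq_one hJ2))
    exact Nat.Coprime.coprime_dvd_left orderOf_dvd_card h.coprime_two_right
  obtain ⟨g, hg⟩ := (ClassGroup.mk0_eq_one_iff J.2).1 hJ1
  have hg' : J.1 = Ideal.span {g} := hg
  rw [hg', Ideal.span_singleton_mul_span_singleton, Ideal.span_singleton_eq_span_singleton] at hJ
  obtain ⟨u, hu⟩ := hJ.symm
  have hg0 : g ≠ 0 := fun h0 => nonZeroDivisors.coe_ne_zero J (by rw [hg', h0]; simp)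
  refine ⟨intUnits u, ⟨u, rfl⟩, ?_⟩
  have hau : intU r hr = intU g hg0 * intU g hg0 * intUnits u := Units.ext (by
    have h1 := congrArg (fun t : 𝓞 K => (t : K)) hu
    simp only [map_mul] at h1
    exact h1.symm)
  have h2 := congrArg sgnVec hau
  rw [he, map_mul, map_mul sgnVec y, sgn_mul_self, mul_one, map_mul, map_mul, sgn_mul_self,
    one_mul] at h2
  exact h2.symm

/-- **The narrow class number of a field of odd class number.** -/
theorem card_narrow_dvd (h : Odd (classNumber K)) :
    Nat.card (NarrowCl K) ∣ classNumber K * 2 ^ (Nat.card (RealPl K) / 2) := by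
  rw [card_narrow_eq]
  refine Nat.mul_dvd_mul_left _ (card_range_sgnCls_dvd.trans ?_)
  rw [← sqSigns_eq_unitSigns h]
  exact index_sqSigns_dvd

/-- A unit of mixed signs. -/
theorem exists_mixed_unit (h : Odd (classNumber K)) (h3 : 3 ≤ Nat.card (RealPl K)) :
    ∃ u : (𝓞 K)ˣ, (∃ w, Multiplicative.toAdd (sgnVec (intUnits u)) w = 0) ∧
      ∃ w, Multiplicative.toAdd (sgnVec (intUnits u)) w ≠ 0 := by
  by_contra! hcon
  set one' : SgnGrp K := Multiplicative.ofAdd fun _ => 1
  have hsub : (unitSigns K : Set (SgnGrp K)) ⊆ {1, one'} := by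
    rintro _ ⟨_, ⟨u, rfl⟩, rfl⟩
    by_cases hz : ∃ w, Multiplicative.toAdd (sgnVec (intUnits u)) w = 0
    · exact Or.inl (Multiplicative.toAdd.injective (funext (hcon u hz)))
    · exact Or.inr (Multiplicative.toAdd.injective (funext fun w =>
        zmod_two_eq_one _ fun h0 => hz ⟨w, h0⟩))
  have h1 := two_pow_le_card_sqSigns (K := K)
  rw [sqSigns_eq_unitSigns h] at h1
  have h2 : 2 ^ 2 ≤ 2 ^ ((Nat.card (RealPl K) + 1) / 2) :=
    Nat.pow_le_pow_right two_pos (by omega)
  have h4 := (Set.ncard_le_ncard hsub).trans (Set.ncard_insert_le _ _)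
  rw [Set.ncard_singleton, ← Nat.card_coe_set_eq] at h4
  exact absurd (h2.trans (h1.trans h4)) (by norm_num)

end FA.ArmFro
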