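import Fermat.Agent.ArmitageFroehlich.Signs

/-!
# The quadratic field of an orthogonal sign vector

A sign vector orthogonal to the signs of all elements generating squares gives, by the existence
theorem and reciprocity, a quadratic field `K(√b)` with `b` generating a square and of exactly these
signs.
-/

set_option autoImplicit false
set_option linter.unusedSectionVars false
set_option linter.style.haveILetI false

noncomputable section

universe u

open NumberField NumberField.InfinitePlace IsDedekindDomain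
open FA.Hecke (IsRayElt coprimeIdeals RayClassGroup rayClass rayClass_eq_iff finite_rayClassGroup)
open scoped Pointwise nonZeroDivisors Classical Matrix

namespace FA.ArmFro

open FA.ArtinRec

variable {K : Type u} [Field K] [NumberField K]

/-- A finite group of exponent two above a subgroup has a hyperplane missing a given element. -/
theorem exists_index_two {G : Type*} [CommGroup G] [Finite G] {H₀ : Subgroup G}
    (hsq : ∀ x : G, x * x ∈ H₀) {g : G} (hg : g ∉ H₀) :
    ∃ H : Subgroup G, H₀ ≤ H ∧ g ∉ H ∧ H.index = 2 := by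
  obtain ⟨H, hle, ⟨-, hgH⟩, hmax⟩ :=
    Finite.exists_le_maximal (p := fun H : Subgroup G => H₀ ≤ H ∧ g ∉ H) ⟨le_rfl, hg⟩
  refine ⟨H, hle, hgH, Subgroup.index_eq_two_iff.2 ⟨g, fun x => ?_⟩⟩
  by_cases hx : x ∈ H
  · exact Or.inr ⟨hx, fun h => hgH ((Subgroup.mul_mem_cancel_left H hx).1 h)⟩
  refine Or.inl ⟨?_, hx⟩
  have hin : g ∈ H ⊔ Subgroup.zpowers x := by
    by_contra hno
    exact hx (hmax ⟨hle.trans le_sup_left, hno⟩ le_sup_left
      (Subgroup.mem_sup_right (Subgroup.mem_zpowers x)))
  obtain ⟨h, hh, _, ⟨k, rfl⟩, he⟩ := Subgroup.mem_sup.1 hin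
  rcases Int.even_or_odd k with ⟨m, hm⟩ | ⟨m, hm⟩
  · exfalso
    refine hgH ?_
    rw [← he]
    show h * x ^ k ∈ H
    rw [hm, ← two_mul, zpow_mul, zpow_two]
    exact mul_mem hh (zpow_mem (hle (hsq x)) m)
  · rw [← he]
    show x * (h * x ^ k) ∈ H
    rw [show x ^ k = (x * x) ^ m * x by rw [hm, zpow_add, zpow_mul, zpow_two, zpow_one],
      show x * (h * ((x * x) ^ m * x)) = h * (x * x) ^ m * (x * x) by
        simp only [mul_assoc, mul_left_comm]]
    exact mul_mem (mul_mem hh (zpow_mem (hle (hsq x)) m)) (hle (hsq x))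

/-! ### Quadratic extensions -/

section quadratic

variable {L : Type*} [Field L] [NumberField L] [Algebra K L] [IsGalois K L]

/-- A square root in a quadratic extension changed by the nontrivial automorphism. -/
theorem exists_sqrt (hL : Nat.card (L ≃ₐ[K] L) = 2) :
    ∃ (b : Kˣ) (z : Lˣ), (z : L) * z = algebraMap K L b ∧
      ∀ g : L ≃ₐ[K] L, g ≠ 1 → g (z : L) = -z := by
  obtain ⟨σ, hσ, huniq⟩ := (Nat.card_eq_two_iff' (1 : L ≃ₐ[K] L)).1 hL
  obtain ⟨y, hy⟩ : ∃ y, σ y ≠ y := by
    by_contra! h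
    exact hσ (AlgEquiv.ext h)
  have hσ2 : σ * σ = 1 := by
    by_contra h
    exact hσ (mul_eq_left.1 (huniq _ h))
  have hz : σ (y - σ y) = -(y - σ y) := by
    rw [map_sub, show σ (σ y) = y by rw [← AlgEquiv.mul_apply, hσ2, AlgEquiv.one_apply], neg_sub]
  obtain ⟨c, hc⟩ := (IsGalois.mem_range_algebraMap_iff_fixed (F := K)
      ((y - σ y) * (y - σ y))).2 fun g => by
    by_cases hg : g = 1
    · rw [hg, AlgEquiv.one_apply]
    · rw [huniq g hg, map_mul, hz, neg_mul_neg]
  have hz0 : y - σ y ≠ 0 := sub_ne_zero.2 (Ne.symm hy)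
  have hc0 : c ≠ 0 := fun h => mul_ne_zero hz0 hz0 (by rw [← hc, h, map_zero])
  exact ⟨Units.mk0 c hc0, Units.mk0 _ hz0, hc.symm, fun g hg => by rw [huniq g hg]; exact hz⟩

variable {b : Kˣ} {z : Lˣ} (hb : (z : L) * z = algebraMap K L b)
include hb

theorem two_dvd_ord (hunr : ∀ v : HeightOneSpectrum (𝓞 K), ¬ IsRam L v)
    (v : HeightOneSpectrum (𝓞 K)) : 2 ∣ ord v b := by
  obtain ⟨Q, rfl⟩ := exists_belowP K L v
  have h : ord Q (baseU (L := L) b) = ord Q (z * z) :=
    congrArg (ord Q) (Units.ext (by rw [baseU_val, Units.val_mul, hb]))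
  rw [ord_baseU, eIdx_eq_one (hunr _), ord_mul, Nat.cast_one, one_mul] at h
  omega

/-- Positive at the unramified places. -/
theorem pos_of_unramified {w : InfinitePlace K} (hw : IsReal w) (h : w.IsUnramifiedIn L) :
    0 < embedding_of_isReal hw (b : K) := by
  obtain ⟨u, hu⟩ := InfinitePlace.comap_surjective (K := L) w
  have hur : IsReal u := (isUnramified_iff.1 (h u hu)).resolve_right
    (not_isComplex_iff_isReal.2 (by rw [show u.comap (algebraMap K L) = w from hu]; exact hw))
  have he : embedding_of_isReal hw (b : K) =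
      embedding_of_isReal hur (z : L) * embedding_of_isReal hur (z : L) := by
    rw [← map_mul, hb]
    subst hu
    refine Complex.ofReal_injective ?_
    rw [embedding_of_isReal_apply, embedding_of_isReal_apply,
      comap_embedding_of_isReal (algebraMap K L) hw]
    rfl
  rw [he]
  exact mul_self_pos.2 ((map_ne_zero _).2 z.ne_zero)

/-- Negative at the ramified places. -/
theorem neg_of_ramified (hσ : ∀ g : L ≃ₐ[K] L, g ≠ 1 → g (z : L) = -z) {w : InfinitePlace K}
    (hw : IsReal w) (h : ¬ w.IsUnramifiedIn L) : embedding_of_isReal hw (b : K) < 0 := by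
  obtain ⟨u, hu, hram⟩ : ∃ u : InfinitePlace L, u.comap (algebraMap K L) = w ∧
      ¬ u.IsUnramified K := by
    by_contra! hcon
    exact h fun u hu => hcon u hu
  subst hu
  obtain ⟨σ, hconj⟩ := exists_isConj_of_isRamified (k := K) (φ := u.embedding)
    (by rwa [mk_embedding])
  have hσ1 : σ ≠ 1 := fun h1 => hram (by
    rw [← mk_embedding u]; exact hconj.isUnramified_mk_iff.2 h1)
  have hre : (u.embedding (z : L)).re = 0 := by
    have h2 := congrArg Complex.re (hconj.eq (z : L))
    rw [hσ σ hσ1, map_neg, Complex.neg_re] at h2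
    change -(u.embedding (z : L)).re = ((starRingEnd ℂ) (u.embedding (z : L))).re at h2
    rw [Complex.conj_re] at h2
    linarith
  have he : ((embedding_of_isReal hw (b : K) : ℝ) : ℂ) =
      u.embedding (z : L) * u.embedding (z : L) := by
    rw [embedding_of_isReal_apply, InfinitePlace.IsRamified.comap_embedding hram,
      RingHom.comp_apply, ← hb, map_mul]
  have h3 := congrArg Complex.re he
  rw [Complex.ofReal_re, Complex.mul_re, hre, zero_mul, zero_sub] at h3
  rw [h3, neg_lt_zero]
  refine mul_self_pos.2 fun him => (map_ne_zero u.embedding).2 z.ne_zero ?_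
  exact Complex.ext hre him

end quadratic

/-! ### The duality -/

/-- The scalar product of two sign vectors. -/
def sgnDot (s : SgnGrp K) : SgnGrp K →* Multiplicative (ZMod 2) :=
  AddMonoidHom.toMultiplicative
    (AddMonoidHom.mk' (fun t => Multiplicative.toAdd s ⬝ᵥ t) fun _ _ => dotProduct_add _ _ _)

theorem toAdd_sgnDot (s t : SgnGrp K) :
    Multiplicative.toAdd (sgnDot s t) = Multiplicative.toAdd s ⬝ᵥ Multiplicative.toAdd t := rfl

theorem zmod_two_eq_one : ∀ a : ZMod 2, a ≠ 0 → a = 1 := by decide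

/-- The sign vector negative only at one place. -/
def singleSgn (w : RealPl K) : SgnGrp K := Multiplicative.ofAdd (Pi.single w 1)

theorem sgnDot_single (s : SgnGrp K) (w : RealPl K) :
    Multiplicative.toAdd (sgnDot s (singleSgn w)) = Multiplicative.toAdd s w := by
  rw [toAdd_sgnDot, singleSgn, toAdd_ofAdd, dotProduct_single, mul_one]

/-- **Duality**: a sign vector orthogonal to those of the elements generating squares is one of
them. -/
theorem mem_sqSigns_of_orthogonal (s : SgnGrp K)
    (hs : ∀ t ∈ sqSigns K, sgnDot s t = 1) : s ∈ sqSigns K := by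
  by_cases h1 : s = 1
  · rw [h1]; exact one_mem _
  obtain ⟨w₀, hw₀⟩ : ∃ w, Multiplicative.toAdd s w ≠ 0 := by
    by_contra! h
    exact h1 (Multiplicative.toAdd.injective (funext h))
  set t₀ := singleSgn w₀
  have ht₀ : t₀ ∉ (sgnDot s).ker := fun h => hw₀ (by
    rw [← sgnDot_single s w₀, show sgnDot s t₀ = 1 from h]; rfl)
  haveI : Finite (NarrowCl K) := finite_rayClassGroup (unitModulus_ne_bot K)
  obtain ⟨H, hle, hgH, hidx⟩ := exists_index_two
    (H₀ := sqCls K ⊔ (sgnDot s).ker.map sgnCls) (g := sgnCls t₀)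
    (fun γ => Subgroup.mem_sup_left (S := sqCls K)
      ⟨γ, by rw [powMonoidHom_apply, pow_two]⟩) fun h => by
      obtain ⟨a, ha, _, ⟨t, ht, rfl⟩, he⟩ := Subgroup.mem_sup.1 h
      have h2 : t₀ * t⁻¹ ∈ sqSigns K := by
        rw [← sgnCls_mem_sqCls, map_mul, map_inv, ← he, mul_inv_cancel_right]
        exact ha
      have h3 := hs _ h2
      rw [map_mul, map_inv, show sgnDot s t = 1 from ht, inv_one, mul_one] at h3
      exact ht₀ h3
  -- the sign vectors sent into the hyperplane
  have hcom : ∀ t, sgnCls t ∈ H → sgnDot s t = 1 := fun t ht => by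
    by_contra hne
    refine hgH ?_
    have hdiv : t₀ * t ∈ (sgnDot s).ker := by
      have hz : ∀ a b : ZMod 2, a ≠ 0 → b ≠ 0 → a + b = 0 := by decide
      refine Multiplicative.toAdd.injective ?_
      rw [map_mul, toAdd_mul, toAdd_one]
      exact hz _ _ (fun h => ht₀ (Multiplicative.toAdd.injective h))
        fun h => hne (Multiplicative.toAdd.injective h)
    have h4 := mul_mem (hle (Subgroup.mem_sup_right ⟨_, hdiv, rfl⟩)) ht
    rwa [← map_mul, mul_assoc, sgn_mul_self, mul_one] at h4
  set S : Set (InfinitePlace K) :=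
    {w | ∃ h : IsReal w, Multiplicative.toAdd s ⟨w, h⟩ ≠ 0} with hS
  have hsemi : semiClasses (unitModulus_ne_bot K) S ≤ H := by
    rw [semiClasses, Subgroup.closure_le]
    rintro _ ⟨x, hx, rfl⟩
    refine hle (Subgroup.mem_sup_right ⟨sgnVec (intU x hx.1), ?_, sgnCls_sgnVec hx.1⟩)
    refine Multiplicative.toAdd.injective (Finset.sum_eq_zero fun w _ => ?_)
    by_cases hw : Multiplicative.toAdd s w = 0
    · rw [hw, zero_mul]
    · rw [(sgnVec_eq_zero_iff (intU x hx.1) w).2 (hx.2.2 w.1 ⟨w.2, hw⟩ w.2), mul_zero]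
  obtain ⟨L, _, _, _, _, _, hL⟩ := exists_classField (unitModulus_ne_bot K) S H hsemi
  have hunr : ∀ v, ¬ IsRam L v := fun v => hL.unram v (sup_top_eq _)
  have hcard : Nat.card (L ≃ₐ[K] L) = 2 := hL.card_eq.trans hidx
  obtain ⟨b, z, hb, hz⟩ := exists_sqrt hcard
  refine ⟨b, two_dvd_ord hb hunr, Multiplicative.toAdd.injective (funext fun w => ?_)⟩
  by_cases hw : w.1.IsUnramifiedIn L
  · rw [(sgnVec_eq_zero_iff b w).2 (pos_of_unramified hb w.2 hw)]
    by_contra hne
    -- an element negative only at `w` has trivial symbol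
    obtain ⟨x, hx, hxs⟩ := exists_sgn_int (singleSgn w)
    obtain ⟨𝔯, h𝔯, hdvd, hsigned⟩ := exists_signed_modulus K L
    have htop : 𝔯 = ⊤ := ideal_eq_of_ordI h𝔯 top_ne_bot fun u => by
      rw [ordI_top, (ordI_eq_zero_iff u).2 fun hu => hunr u (hdvd u hu)]
    set I : (Ideal (𝓞 K))⁰ :=
      ⟨Ideal.span {x}, mem_nonZeroDivisors_iff_ne_zero.2 (by simpa using hx)⟩
    have hart : artinHom L I = 1 := hsigned x I hx (htop ▸ Submodule.mem_top) (fun u hu hur => by
      refine (sgnVec_eq_zero_iff (intU x hx) ⟨u, hur⟩).1 ?_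
      rw [hxs, singleSgn, toAdd_ofAdd, Pi.single_eq_of_ne]
      exact fun he => hu (by rwa [← he] at hw)) rfl
    obtain ⟨ω, -, hker, hω⟩ := hL.artin
    have hmem : sgnCls (singleSgn w) ∈ H := by
      rw [← hxs, sgnCls_sgnVec, ← hker, MonoidHom.mem_ker, prCls, hω]
      exact hart
    have h5 := congrArg Multiplicative.toAdd (hcom _ hmem)
    rw [sgnDot_single, toAdd_one] at h5
    exact hne h5.symm
  · rw [toAdd_sgnVec, if_neg (neg_of_ramified hb hz w.2 hw).not_gt]
    refine (zmod_two_eq_one _ fun h0 => hw (hL.unramInf w.1 fun ⟨h, hne⟩ => hne ?_)).symm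
    exact h0

end FA.ArmFro
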