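import Fermat.Agent.ExistenceTheorem.HilbertClassField

/-!
# Signs at the real places and the narrow class group

The vector of signs of an element at the real places, the group `V` of elements generating squares
of ideals, and the kernel of the projection of the narrow class group to the class group.
-/

set_option autoImplicit false
set_option linter.unusedSectionVars false
set_option linter.style.haveILetI false

noncomputable section

universe u

open NumberField NumberField.InfinitePlace IsDedekindDomain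
open FA.Hecke (IsRayElt coprimeIdeals RayClassGroup rayClass rayClass_eq_iff
  exists_isReal_embedding)
open scoped Pointwise nonZeroDivisors Classical

namespace FA.ArmFro

open FA.ArtinRec

variable {K : Type u} [Field K] [NumberField K]

/-- The real places. -/
abbrev RealPl (K : Type u) [Field K] [NumberField K] : Type u := {w : InfinitePlace K // IsReal w}

/-- The sign vectors. -/
abbrev SgnGrp (K : Type u) [Field K] [NumberField K] : Type u :=
  Multiplicative (RealPl K → ZMod 2)

theorem emb_ne_zero (w : RealPl K) (a : Kˣ) : embedding_of_isReal w.2 (a : K) ≠ 0 :=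
  (map_ne_zero _).2 a.ne_zero

/-- The signs of an element. -/
def sgnVec : Kˣ →* SgnGrp K :=
  MonoidHom.mk' (fun a => Multiplicative.ofAdd fun w : RealPl K =>
      if 0 < embedding_of_isReal w.2 (a : K) then 0 else 1)
    fun a b => Multiplicative.toAdd.injective (funext fun w => by
      show (if 0 < embedding_of_isReal w.2 ((a * b : Kˣ) : K) then (0 : ZMod 2) else 1) =
        (if 0 < embedding_of_isReal w.2 (a : K) then (0 : ZMod 2) else 1) +
          (if 0 < embedding_of_isReal w.2 (b : K) then (0 : ZMod 2) else 1)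
      rw [Units.val_mul, map_mul]
      rcases (emb_ne_zero w a).lt_or_gt with ha | ha <;>
        rcases (emb_ne_zero w b).lt_or_gt with hb | hb
      · rw [if_pos (mul_pos_of_neg_of_neg ha hb), if_neg ha.not_gt, if_neg hb.not_gt]; rfl
      · rw [if_neg (mul_neg_of_neg_of_pos ha hb).not_gt, if_neg ha.not_gt, if_pos hb, add_zero]
      · rw [if_neg (mul_neg_of_pos_of_neg ha hb).not_gt, if_pos ha, if_neg hb.not_gt, zero_add]
      · rw [if_pos (mul_pos ha hb), if_pos ha, if_pos hb, add_zero])

theorem toAdd_sgnVec (a : Kˣ) (w : RealPl K) :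
    Multiplicative.toAdd (sgnVec a) w = if 0 < embedding_of_isReal w.2 (a : K) then 0 else 1 := rfl

theorem sgnVec_eq_zero_iff (a : Kˣ) (w : RealPl K) :
    Multiplicative.toAdd (sgnVec a) w = 0 ↔ 0 < embedding_of_isReal w.2 (a : K) := by
  rw [toAdd_sgnVec]
  split_ifs with h <;> simp [h]

theorem sgnVec_eq_one_iff' (a : Kˣ) :
    sgnVec a = 1 ↔ ∀ φ : K →+* ℝ, 0 < φ (a : K) := by
  refine ⟨fun h φ => ?_, fun h => Multiplicative.toAdd.injective (funext fun w => ?_)⟩
  · obtain ⟨w, rfl⟩ := exists_isReal_embedding φ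
    exact (sgnVec_eq_zero_iff a w).1 (congrFun (congrArg Multiplicative.toAdd h) w)
  · exact (sgnVec_eq_zero_iff a w).2 (h _)

theorem sgn_mul_self (s : SgnGrp K) : s * s = 1 :=
  Multiplicative.toAdd.injective (funext fun _ => CharTwo.add_self_eq_zero _)

theorem realEmb_injective :
    Function.Injective fun w : RealPl K => embedding_of_isReal w.2 := fun a b h => by
  refine Subtype.ext (embedding_injective K (RingHom.ext fun x => ?_))
  rw [← embedding_of_isReal_apply a.2, ← embedding_of_isReal_apply b.2]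
  exact congrArg Complex.ofReal (DFunLike.congr_fun h x)

/-- **Every sign vector is that of an integer.** -/
theorem exists_sgn_int (s : SgnGrp K) :
    ∃ (x : 𝓞 K) (hx : x ≠ 0), sgnVec (intU x hx) = s := by
  obtain ⟨a, -, ha⟩ := exists_approx (∅ : Finset (HeightOneSpectrum (𝓞 K))) (fun _ => 1) 0
    fun φ => decide (∀ w : RealPl K,
      embedding_of_isReal w.2 = φ → Multiplicative.toAdd s w = 0)
  obtain ⟨x, y, hx, hy, rfl⟩ := exists_intU_div a
  refine ⟨x * y, mul_ne_zero hx hy, Multiplicative.toAdd.injective (funext fun w => ?_)⟩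
  have hxy : intU (x * y) (mul_ne_zero hx hy) =
      intU x hx / intU y hy * (intU y hy * intU y hy) := by
    rw [← intU_mul hy hy, intU_mul hy hy, ← mul_assoc, div_mul_cancel, intU_mul hx hy]
  rw [hxy, map_mul, map_mul sgnVec (intU y hy), sgn_mul_self, mul_one]
  have h := ha (embedding_of_isReal w.2)
  rw [decide_eq_true_iff, ← sgnVec_eq_zero_iff (intU x hx / intU y hy) w] at h
  by_cases hs : Multiplicative.toAdd s w = 0
  · rw [hs, h]
    exact fun w' hw' => by rw [realEmb_injective hw']; exact hs
  · have hne : ¬ Multiplicative.toAdd (sgnVec (intU x hx / intU y hy)) w = 0 :=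
      fun h0 => hs (h.1 h0 w rfl)
    revert hne hs
    generalize Multiplicative.toAdd (sgnVec (intU x hx / intU y hy)) w = p
    generalize Multiplicative.toAdd s w = q
    revert p q
    decide

/-! ### Elements generating squares -/

variable (K) in
/-- The elements generating the square of an ideal. -/
def sqGen : Subgroup Kˣ where
  carrier := {a | ∀ v : HeightOneSpectrum (𝓞 K), 2 ∣ ord v a}
  one_mem' v := by rw [ord_one]; exact dvd_zero _
  mul_mem' ha hb v := by rw [ord_mul]; exact dvd_add (ha v) (hb v)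
  inv_mem' ha v := by rw [ord_inv]; exact (ha v).neg_right

theorem intUnits_mem_sqGen (u : (𝓞 K)ˣ) : intUnits u ∈ sqGen K := fun v => by
  rw [ord_intUnits]; exact dvd_zero _

/-- An integral representative, with the same signs, generating an integral square. -/
theorem exists_square_rep {a : Kˣ} (ha : a ∈ sqGen K) :
    ∃ (r : 𝓞 K) (hr : r ≠ 0) (y : Kˣ) (J : (Ideal (𝓞 K))⁰),
      intU r hr = a * (y * y) ∧ Ideal.span {r} = J.1 * J.1 := by
  obtain ⟨x, z, hx, hz, rfl⟩ := exists_intU_div a
  have hr : x * z ≠ 0 := mul_ne_zero hx hz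
  have he : intU (x * z) hr = intU x hx / intU z hz * (intU z hz * intU z hz) := by
    rw [← mul_assoc, div_mul_cancel, intU_mul hx hz]
  have hev : ∀ v, 2 ∣ ordI v (Ideal.span {x * z}) := fun v => by
    have h := ha v
    have h1 : (ordI v (Ideal.span {x * z}) : ℤ) = ord v (intU (x * z) hr) :=
      (ord_intU_eq_ordI v hr).symm
    rw [he, ord_mul, ord_mul] at h1
    omega
  have h0 : Ideal.span {x * z} ≠ ⊥ := by simpa using hr
  obtain ⟨J, hJ, hJord⟩ := exists_ideal_ordI (fun v => ordI v (Ideal.span {x * z}) / 2)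
    ((finite_ordI_ne_zero h0).subset fun v hv h => hv (by
      show ordI v (Ideal.span {x * z}) / 2 = 0
      rw [h]))
  refine ⟨_, hr, intU z hz, ⟨J, mem_nonZeroDivisors_iff_ne_zero.2 hJ⟩, he,
    ideal_eq_of_ordI h0 (mul_ne_zero hJ hJ) fun v => ?_⟩
  rw [ordI_mul v hJ hJ, hJord]
  have := hev v
  omega

variable (K) in
/-- The signs of the elements generating squares. -/
def sqSigns : Subgroup (SgnGrp K) := (sqGen K).map sgnVec

variable (K) in
/-- The signs of the units. -/
def unitSigns : Subgroup (SgnGrp K) := (intUnits (F := K)).range.map sgnVec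

theorem unitSigns_le : unitSigns K ≤ sqSigns K := by
  refine Subgroup.map_mono ?_
  rintro _ ⟨u, rfl⟩
  exact intUnits_mem_sqGen u

/-! ### The kernel of the projection to the classes -/

variable (K) in
/-- The narrow class group. -/
abbrev NarrowCl : Type u := RayClassGroup (⊤ : Ideal (𝓞 K))

/-- The narrow class of a principal ideal. -/
def prCls {x : 𝓞 K} (hx : x ≠ 0) : NarrowCl K :=
  rayClass (unitModulus_ne_bot K)
    ⟨⟨Ideal.span {x}, mem_nonZeroDivisors_iff_ne_zero.2 (by simpa using hx)⟩, sup_top_eq _⟩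

/-- **The class depends only on the signs.** -/
theorem prCls_eq_of_sgn {x y : 𝓞 K} (hx : x ≠ 0) (hy : y ≠ 0)
    (h : sgnVec (intU x hx) = sgnVec (intU y hy)) : prCls hx = prCls hy := by
  rw [prCls, prCls, rayClass_eq_iff]
  refine ⟨y * x, x * x, ⟨mul_ne_zero hy hx, trivial, fun φ => ?_⟩,
    ⟨mul_ne_zero hx hx, trivial, fun φ => ?_⟩, ?_⟩
  · exact (sgnVec_eq_one_iff' (intU (y * x) (mul_ne_zero hy hx))).1
      (by rw [intU_mul hy hx, map_mul, h, sgn_mul_self]) φ
  · exact (sgnVec_eq_one_iff' (intU (x * x) (mul_ne_zero hx hx))).1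
      (by rw [intU_mul hx hx, map_mul, sgn_mul_self]) φ
  · rw [Ideal.span_singleton_mul_span_singleton, Ideal.span_singleton_mul_span_singleton]
    exact congrArg (fun z => Ideal.span {z}) (by ring)

/-- The narrow classes of the principal ideals, by signs. -/
def sgnCls : SgnGrp K →* NarrowCl K :=
  MonoidHom.mk' (fun s => prCls (exists_sgn_int s).choose_spec.choose) fun s t => by
    set hx := (exists_sgn_int s).choose_spec.choose
    set hy := (exists_sgn_int t).choose_spec.choose
    rw [prCls_eq_of_sgn (exists_sgn_int (s * t)).choose_spec.choose (mul_ne_zero hx hy) (by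
      rw [intU_mul hx hy, map_mul, (exists_sgn_int (s * t)).choose_spec.choose_spec,
        (exists_sgn_int s).choose_spec.choose_spec, (exists_sgn_int t).choose_spec.choose_spec]),
      prCls, prCls, prCls, ← map_mul]
    exact congrArg _ (Subtype.ext (Subtype.ext (Ideal.span_singleton_mul_span_singleton _ _).symm))

theorem sgnCls_sgnVec {x : 𝓞 K} (hx : x ≠ 0) : sgnCls (sgnVec (intU x hx)) = prCls hx :=
  prCls_eq_of_sgn _ _ (exists_sgn_int (sgnVec (intU x hx))).choose_spec.choose_spec

theorem range_sgnCls : (sgnCls (K := K)).range = (toClassGroup K).ker := by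
  rw [ker_toClassGroup]
  refine le_antisymm ?_ ((Subgroup.closure_le _).2 ?_)
  · rintro _ ⟨s, rfl⟩
    obtain ⟨x, hx, rfl⟩ := exists_sgn_int s
    rw [sgnCls_sgnVec]
    exact Subgroup.subset_closure ⟨x, ⟨hx, trivial, fun w hw => absurd hw id⟩, rfl⟩
  · rintro _ ⟨x, hx, rfl⟩
    exact ⟨sgnVec (intU x hx.1), sgnCls_sgnVec hx.1⟩

variable (K) in
/-- The squares among the narrow classes. -/
def sqCls : Subgroup (NarrowCl K) := (powMonoidHom (α := NarrowCl K) 2).range

/-- **A sign vector gives a square iff some element generating a square has these signs.** -/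
theorem sgnCls_mem_sqCls (s : SgnGrp K) : sgnCls s ∈ sqCls K ↔ s ∈ sqSigns K := by
  constructor
  · obtain ⟨x, hx, rfl⟩ := exists_sgn_int s
    rintro ⟨γ, hγ⟩
    obtain ⟨I, rfl⟩ := FA.Hecke.rayClass_surjective (unitModulus_ne_bot K) γ
    rw [powMonoidHom_apply, pow_two, ← map_mul, sgnCls_sgnVec, prCls, rayClass_eq_iff] at hγ
    obtain ⟨p, q, ⟨hp, -, hp'⟩, ⟨hq, -, hq'⟩, he⟩ := hγ
    refine ⟨intU x hx * (intU q hq / intU p hp), fun v => ?_, ?_⟩
    · have h := congrArg (ordI v) he
      have hI := nonZeroDivisors.coe_ne_zero I.1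
      rw [ordI_mul v (by simpa using hp) (nonZeroDivisors.coe_ne_zero (I * I).1),
        ordI_mul v (by simpa using hq) (by simpa using hx),
        show ((I * I).1.1 : Ideal (𝓞 K)) = I.1.1 * I.1.1 from rfl, ordI_mul v hI hI] at h
      rw [ord_mul, ord_div, ord_intU_eq_ordI, ord_intU_eq_ordI, ord_intU_eq_ordI]
      dsimp only at h
      omega
    · rw [map_mul, map_div, (sgnVec_eq_one_iff' (intU p hp)).2 hp',
        (sgnVec_eq_one_iff' (intU q hq)).2 hq', div_one, mul_one]
  · rintro ⟨a, ha, rfl⟩
    obtain ⟨r, hr, y, J, he, hJ⟩ := exists_square_rep ha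
    have hs : sgnVec a = sgnVec (intU r hr) := by
      rw [he, map_mul, map_mul sgnVec y, sgn_mul_self, mul_one]
    rw [hs, sgnCls_sgnVec]
    refine ⟨rayClass (unitModulus_ne_bot K) ⟨J, sup_top_eq _⟩, ?_⟩
    rw [powMonoidHom_apply, pow_two, ← map_mul, prCls]
    exact congrArg _ (Subtype.ext (Subtype.ext hJ.symm))

theorem comap_sqCls : (sqCls K).comap sgnCls = sqSigns K :=
  Subgroup.ext sgnCls_mem_sqCls

theorem sgnCls_unitSigns {s : SgnGrp K} (hs : s ∈ unitSigns K) : sgnCls s = 1 := by
  obtain ⟨_, ⟨u, rfl⟩, rfl⟩ := hs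
  rw [show intUnits u = intU (u : 𝓞 K) u.ne_zero from Units.ext rfl, sgnCls_sgnVec, prCls,
    ← map_one (rayClass (unitModulus_ne_bot K))]
  exact congrArg _ (Subtype.ext (Subtype.ext
    ((Ideal.span_singleton_eq_top.2 u.isUnit).trans Ideal.one_eq_top.symm)))

end FA.ArmFro
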